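/-
S18 / core 2, leaf K2-N (number-field descent of the setup), sub-leaf PLACES (helper61).

Setting: `K₀ ⊆ K` fields with `K` algebraic over `K₀` and algebraically closed of characteristic
zero, `F/K` a function field in one variable (`x` transcendental, `[F : K(x)] < ∞`), and
`F₀ ⊆ F` an intermediate field over `K₀`.

* `exists_valuationSubring_above` : Chevalley — every valuation subring of `F₀` is the trace of a
  valuation subring of `F`.
* `exists_place_above` : every valuation subring `V ≠ ⊤` of `F₀` containing `K₀` is `P ∩ F₀` for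
  a place `P` of `F/K`.
* `exists_ord_eq_one_of_center` : at a place with `ord_P (x - c) = 1` the polynomial
  `minpoly K₀ c` evaluated at `x` is an element of `F₀` of order one.
* `branch_descent` : the uniformiser statement of the descended branch condition.
* `hdiv_descent` : divisibility of the divisor descends.
* `exists_uniformiser_finset` : the finite set of uniformisers which `F₀` has to contain.
-/
import Mathlib
import Fermat.Prelude.Def_AlgebraicCurve_DivisorClassGroup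
import Fermat.Agent.S24.Residue
import Fermat.Agent.S24.Ord
import Fermat.Agent.S18.H78.ConstGeneric
import Fermat.Agent.S18.H42.FiniteOrd
import Fermat.Agent.S18.H19.Core2Defs

set_option autoImplicit false

open AlgebraicCurve IntermediateField Polynomial

noncomputable section

namespace Fermat.Agent.S18.H61

section Chevalley

variable {K₀ F : Type*} [Field K₀] [Field F] [Algebra K₀ F] (F₀ : IntermediateField K₀ F)

/-- Chevalley's extension theorem in the form used here: a valuation subring of `F₀` is the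
intersection with `F₀` of a valuation subring of `F`. -/
theorem exists_valuationSubring_above (V : ValuationSubring F₀) :
    ∃ W : ValuationSubring F, ∀ f : F₀, f ∈ V ↔ (f : F) ∈ W := by
  obtain ⟨W, hle, hloc⟩ :=
    (LocalSubring.map (algebraMap F₀ F) V.toLocalSubring).exists_le_valuationSubring
  refine ⟨W, fun f => ⟨fun hf => hle ⟨f, hf, rfl⟩, fun hfW => ?_⟩⟩
  by_contra hfV
  have hinv : f⁻¹ ∈ V := (V.mem_or_inv_mem f).resolve_left hfV
  have hf0 : f ≠ 0 := fun h => hfV (h ▸ V.zero_mem)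
  have hunit : IsUnit (Subring.inclusion hle ⟨algebraMap F₀ F f⁻¹, ⟨f⁻¹, hinv, rfl⟩⟩) := by
    refine isUnit_iff_exists_inv.mpr ⟨⟨(f : F), hfW⟩, Subtype.ext ?_⟩
    show algebraMap F₀ F f⁻¹ * algebraMap F₀ F f = 1
    rw [← map_mul, inv_mul_cancel₀ hf0, map_one]
  obtain ⟨⟨b, g, hg, rfl⟩, hb⟩ := isUnit_iff_exists_inv.mp (hloc.map_nonunit _ hunit)
  have h1 : algebraMap F₀ F f⁻¹ * algebraMap F₀ F g = 1 := congrArg Subtype.val hb
  have h2 : f⁻¹ * g = 1 := by
    apply (algebraMap F₀ F).injective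
    rw [map_mul, h1, map_one]
  have h3 : g = f := by
    have := congrArg (fun z => f * z) h2
    simpa [← mul_assoc, mul_inv_cancel₀ hf0] using this
  exact hfV (h3 ▸ hg)

end Chevalley

section Places

variable {k K : Type*} [Field k] [Field K] [Algebra k K] (K₀ : IntermediateField k K)
  {F : Type*} [Field F] [Algebra K F] (F₀ : IntermediateField K₀ F)

/-- A valuation subring of `F` containing the image of `K₀` contains `K` (algebraic over `K₀`). -/
theorem algebraMap_mem_of_isAlgebraic [Algebra.IsAlgebraic K₀ K] (W : ValuationSubring F)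
    (hW : ∀ a : K₀, algebraMap K₀ F a ∈ W) (a : K) : algebraMap K F a ∈ W := by
  have ha : IsIntegral K₀ a := Algebra.IsIntegral.isIntegral a
  have ha' : IsIntegral K₀ (algebraMap K F a) := ha.map (IsScalarTower.toAlgHom K₀ K F)
  let _ : Algebra K₀ W := ((algebraMap K₀ F).codRestrict W.toSubring hW).toAlgebra
  have : IsScalarTower K₀ W F := IsScalarTower.of_algebraMap_eq (fun _ => rfl)
  obtain ⟨y, hy⟩ := IsIntegrallyClosed.isIntegral_iff.mp (ha'.tower_top (A := W))
  rw [← hy]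
  exact y.2

/-- **(P1)** Every valuation subring `V ≠ ⊤` of `F₀` containing `K₀` is the trace on `F₀` of a
place of `F/K`. -/
theorem exists_place_above [Algebra.IsAlgebraic K₀ K] (x : F) [FiniteDimensional K⟮x⟯ F]
    (V : ValuationSubring F₀) (hK : ∀ a : K₀, algebraMap K₀ F₀ a ∈ V) (hV : V ≠ ⊤) :
    ∃ P : Place K F, ∀ f : F₀, f ∈ V ↔ (f : F) ∈ P.toValuationSubring := by
  obtain ⟨W, hW⟩ := exists_valuationSubring_above F₀ V
  have hk : ∀ a : K, algebraMap K F a ∈ W :=
    algebraMap_mem_of_isAlgebraic K₀ W (fun a => (hW _).mp (hK a))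
  have hWtop : W ≠ ⊤ := by
    intro h
    apply hV
    ext f
    rw [hW f, h]
    exact ⟨fun _ => ValuationSubring.mem_top f, fun _ => ValuationSubring.mem_top _⟩
  exact ⟨H78.placeOfValuationSubring x W hk hWtop, fun f => hW f⟩

/-- Membership in `V` read off from the order at a place above `V`. -/
theorem mem_iff_ord_nonneg_of_above {V : ValuationSubring F₀} {P : Place K F}
    (hP : ∀ f : F₀, f ∈ V ↔ (f : F) ∈ P.toValuationSubring) {f : F₀} (hf : f ≠ 0) :
    f ∈ V ↔ 0 ≤ P.ord (f : F) := by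
  rw [hP f]
  exact Fermat.Agent.S24.mem_iff_ord_nonneg P (by simpa using hf)

/-- At a place where `x - c` has order one, the minimal polynomial of `c` over `K₀` evaluated
at `x` has order one. -/
theorem ord_aeval_minpoly [Algebra.IsAlgebraic K₀ K] [CharZero K] (P : Place K F) {x : F}
    {c : K} (hP : P.ord (x - algebraMap K F c) = 1) :
    P.ord (aeval x (minpoly K₀ c)) = 1 := by
  have : CharZero K₀ := (algebraMap K₀ K).charZero
  have hint : IsIntegral K₀ c := Algebra.IsIntegral.isIntegral c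
  have hirr := minpoly.irreducible hint
  have hsep : ((minpoly K₀ c).map (algebraMap K₀ K)).Separable := hirr.separable.map
  have hne : (minpoly K₀ c).map (algebraMap K₀ K) ≠ 0 :=
    (Polynomial.map_ne_zero_iff (algebraMap K₀ K).injective).mpr (minpoly.ne_zero hint)
  have hroot : ((minpoly K₀ c).map (algebraMap K₀ K)).IsRoot c := by
    rw [IsRoot.def, eval_map_algebraMap, minpoly.aeval]
  have hmult : ((minpoly K₀ c).map (algebraMap K₀ K)).rootMultiplicity c = 1 :=
    le_antisymm (rootMultiplicity_le_one_of_separable hsep c)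
      ((rootMultiplicity_pos hne).mpr hroot)
  have hpos : 0 < P.ord (x - algebraMap K F c) := by rw [hP]; exact one_pos
  have key := (Fermat.Agent.S18.H42.ord_aeval P hpos hne).2
  rw [aeval_map_algebraMap, hmult, hP] at key
  simpa using key

variable {F₀}

/-- The coercion of a polynomial expression over `K₀` in an element of `F₀`. -/
theorem coe_aeval (y : F₀) (g : K₀[X]) : ((aeval y g : F₀) : F) = aeval (y : F) g :=
  (Polynomial.aeval_algHom_apply F₀.val y g).symm

variable (F₀)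

/-- **Uniformisers in `F₀`.**  If `F₀` contains a uniformiser at the poles of `x` and at the
places over the branch points, it contains a uniformiser at every place. -/
theorem exists_ord_eq_one [Algebra.IsAlgebraic K₀ K] [IsAlgClosed K] [CharZero K] (y : F₀)
    [FiniteDimensional K⟮(y : F)⟯ F] (S : Finset K)
    (hbr : ∀ (P : Place K F) (c : K), c ∉ S → 0 < P.ord ((y : F) - algebraMap K F c) →
      P.ord ((y : F) - algebraMap K F c) = 1)
    (hunif : ∀ P : Place K F,
      (P.ord (y : F) < 0 ∨ ∃ c ∈ S, 0 < P.ord ((y : F) - algebraMap K F c)) →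
        ∃ t : F₀, P.ord (t : F) = 1)
    (P : Place K F) : ∃ t : F₀, P.ord (t : F) = 1 := by
  rcases Fermat.Agent.S24.exists_center (y : F) P with h | ⟨c, hc⟩
  · exact hunif P (Or.inl h)
  · by_cases hcS : c ∈ S
    · exact hunif P (Or.inr ⟨c, hcS, hc⟩)
    · refine ⟨aeval y (minpoly K₀ c), ?_⟩
      rw [coe_aeval]
      exact ord_aeval_minpoly K₀ P (hbr P c hcS hc)

/-- **(P3)** The descended branch condition: a valuation ring `V ≠ ⊤` of `F₀/K₀` containing `y`
whose centre is not a branch point has a uniformiser which is a polynomial in `y` over `K₀`. -/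
theorem branch_descent [Algebra.IsAlgebraic K₀ K] [IsAlgClosed K] [CharZero K] (y : F₀)
    [FiniteDimensional K⟮(y : F)⟯ F] (S : Finset K)
    (hbr : ∀ (P : Place K F) (c : K), c ∉ S → 0 < P.ord ((y : F) - algebraMap K F c) →
      P.ord ((y : F) - algebraMap K F c) = 1)
    (V : ValuationSubring F₀) (hK : ∀ a : K₀, algebraMap K₀ F₀ a ∈ V) (hV : V ≠ ⊤)
    (hyV : y ∈ V) (hSV : ∀ a : K₀, (a : K) ∈ S → (y - algebraMap K₀ F₀ a)⁻¹ ∈ V)
    (hS0 : ∀ c ∈ S, c ∈ K₀) :
    ∃ g : K₀[X], aeval y g ∈ V ∧ (aeval y g)⁻¹ ∉ V ∧ ∀ t ∈ V, t⁻¹ ∉ V → t / aeval y g ∈ V := by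
  obtain ⟨P, hP⟩ := exists_place_above K₀ F₀ (y : F) V hK hV
  have hyP : 0 ≤ P.ord (y : F) := Fermat.Agent.S24.H52.ord_nonneg_of_mem P ((hP y).mp hyV)
  rcases Fermat.Agent.S24.exists_center (y : F) P with h | ⟨c, hc⟩
  · exact absurd h (not_lt.mpr hyP)
  have hcS : c ∉ S := by
    intro hcS
    have h1 := (hP _).mp (hSV ⟨c, hS0 c hcS⟩ hcS)
    have h2 := Fermat.Agent.S24.H52.ord_nonneg_of_mem P h1
    have h3 : (((y - algebraMap K₀ F₀ ⟨c, hS0 c hcS⟩)⁻¹ : F₀) : F)
        = ((y : F) - algebraMap K F c)⁻¹ := rfl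
    rw [h3, Place.ord_inv] at h2
    omega
  have h1 : P.ord ((aeval y (minpoly K₀ c) : F₀) : F) = 1 := by
    rw [coe_aeval]
    exact ord_aeval_minpoly K₀ P (hbr P c hcS hc)
  have hτ0 : (aeval y (minpoly K₀ c) : F₀) ≠ 0 := by
    intro h
    rw [h] at h1
    simp at h1
  refine ⟨minpoly K₀ c, ?_, ?_, ?_⟩
  · rw [mem_iff_ord_nonneg_of_above K₀ F₀ hP hτ0, h1]
    exact zero_le_one
  · rw [mem_iff_ord_nonneg_of_above K₀ F₀ hP (inv_ne_zero hτ0), IntermediateField.coe_inv,
      Place.ord_inv, h1]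
    norm_num
  · intro t ht hti
    have ht0 : t ≠ 0 := by
      rintro rfl
      exact hti (by rw [inv_zero]; exact V.zero_mem)
    have h2 := (mem_iff_ord_nonneg_of_above K₀ F₀ hP ht0).mp ht
    have h3 := (mem_iff_ord_nonneg_of_above K₀ F₀ hP (inv_ne_zero ht0)).not.mp hti
    rw [IntermediateField.coe_inv, Place.ord_inv] at h3
    rw [mem_iff_ord_nonneg_of_above K₀ F₀ hP (div_ne_zero ht0 hτ0), IntermediateField.coe_div,
      Fermat.Agent.S24.ord_div P (by simpa using ht0) (by simpa using hτ0), h1]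
    omega

/-- **(P4)** Divisibility of the divisor descends: if `p ∣ ord_P u` at every place of `F/K` and
`F₀` contains a uniformiser at every place (see `exists_ord_eq_one`), then `u` is a `p`-th power
up to a unit in every valuation ring `V ≠ ⊤` of `F₀/K₀`. -/
theorem hdiv_descent [Algebra.IsAlgebraic K₀ K] (x : F) [FiniteDimensional K⟮x⟯ F]
    (hunif : ∀ P : Place K F, ∃ t : F₀, P.ord (t : F) = 1)
    (p : ℕ) (u : F₀) (hord : ∀ P : Place K F, (p : ℤ) ∣ P.ord (u : F))
    (V : ValuationSubring F₀) (hK : ∀ a : K₀, algebraMap K₀ F₀ a ∈ V) (hV : V ≠ ⊤) :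
    ∃ t : F₀, t ≠ 0 ∧ u / t ^ p ∈ V ∧ (u / t ^ p)⁻¹ ∈ V := by
  obtain ⟨P, hP⟩ := exists_place_above K₀ F₀ x V hK hV
  obtain ⟨τ, hτ⟩ := hunif P
  have hτ0 : τ ≠ 0 := by
    rintro rfl
    simp at hτ
  obtain ⟨n, hn⟩ := hord P
  have ht0 : τ ^ n ≠ 0 := zpow_ne_zero n hτ0
  refine ⟨τ ^ n, ht0, ?_⟩
  by_cases hu0 : u = 0
  · rw [hu0, zero_div, inv_zero]
    exact ⟨V.zero_mem, V.zero_mem⟩
  have hw0 : u / (τ ^ n) ^ p ≠ 0 := div_ne_zero hu0 (pow_ne_zero p ht0)
  have hw : P.ord ((u / (τ ^ n) ^ p : F₀) : F) = 0 := by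
    rw [IntermediateField.coe_div, IntermediateField.coe_pow,
      Fermat.Agent.S24.ord_div P (by simpa using hu0) (by simpa using pow_ne_zero p ht0),
      Fermat.Agent.S24.ord_pow, show ((τ ^ n : F₀) : F) = (τ : F) ^ n from rfl,
      Place.ord_zpow, hτ, hn]
    ring
  refine ⟨?_, ?_⟩
  · rw [mem_iff_ord_nonneg_of_above K₀ F₀ hP hw0, hw]
  · rw [mem_iff_ord_nonneg_of_above K₀ F₀ hP (inv_ne_zero hw0), IntermediateField.coe_inv,
      Place.ord_inv, hw]
    norm_num

end Places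

section Aux

/-- A valuation subring of `F₀` which contains the inverses of the nonzero elements of a
valuation subring `A₀` of `K₀` contains `K₀`. -/
theorem algebraMap_mem_of_forall_inv_mem {K₀ F₀ : Type*} [Field K₀] [Field F₀] [Algebra K₀ F₀]
    (A₀ : ValuationSubring K₀) (V : ValuationSubring F₀)
    (h : ∀ a : A₀, a ≠ 0 → (algebraMap K₀ F₀ (a : K₀))⁻¹ ∈ V) (c : K₀) :
    algebraMap K₀ F₀ c ∈ V := by
  by_cases hc0 : c = 0
  · rw [hc0, map_zero]; exact V.zero_mem
  have key : ∀ d : K₀, d ≠ 0 → d⁻¹ ∈ A₀ → algebraMap K₀ F₀ d ∈ V := by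
    intro d hd hdi
    have := h ⟨d⁻¹, hdi⟩ (by simpa [Subtype.ext_iff] using hd)
    simpa using this
  by_cases hci : c⁻¹ ∈ A₀
  · exact key c hc0 hci
  · have hlt : A₀.valuation c < 1 := by
      have h1 : ¬ A₀.valuation c⁻¹ ≤ 1 := fun h => hci ((A₀.valuation_le_one_iff _).mp h)
      rw [map_inv₀, not_le] at h1
      have hpos : 0 < A₀.valuation c := zero_lt_iff.mpr ((Valuation.ne_zero_iff _).mpr hc0)
      exact (one_lt_inv₀ hpos).mp h1
    have h1 : A₀.valuation (1 + c) = 1 := A₀.valuation.map_one_add_of_lt hlt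
    have hd0 : (1 + c) ≠ 0 := by
      intro h0
      rw [h0, map_zero] at h1
      exact zero_ne_one h1
    have hdi : (1 + c)⁻¹ ∈ A₀ := by
      rw [← A₀.valuation_le_one_iff, map_inv₀, h1, inv_one]
    have h2 := key (1 + c) hd0 hdi
    rw [map_add, map_one] at h2
    have h3 := V.sub_mem h2 V.one_mem
    simpa using h3

/-- A valuation subring which is a discrete valuation ring is not the whole field. -/
theorem ne_top_of_isDiscreteValuationRing {L : Type*} [Field L] (V : ValuationSubring L)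
    [IsDiscreteValuationRing V] : V ≠ ⊤ := by
  intro hV
  apply IsDiscreteValuationRing.not_isField V
  have hall : ∀ z : L, z ∈ V := fun z => by
    have := ValuationSubring.mem_top z
    rwa [← hV] at this
  refine ⟨⟨0, 1, zero_ne_one⟩, mul_comm, fun {a} ha => ?_⟩
  have ha' : (a : L) ≠ 0 := by simpa using ha
  refine ⟨⟨(a : L)⁻¹, hall _⟩, Subtype.ext ?_⟩
  show (a : L) * (a : L)⁻¹ = 1
  exact mul_inv_cancel₀ ha'

end Aux

section Wrappers

variable {k K : Type*} [Field k] [Field K] [Algebra k K] (K₀ : IntermediateField k K)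
  {F : Type*} [Field F] [Algebra K F] (F₀ : IntermediateField K₀ F)

/-- **The `branch` field of `H19.DSetup`, verbatim**, for the descended data
`A₀ = A ∩ K₀`, `F₀`, `y ∈ F₀`, from the branch statement of `H74.Setup` for `y` (branch set
`S ⊆ A`, pairwise incongruent, contained in `K₀`). -/
theorem dsetup_branch [Algebra.IsAlgebraic K₀ K] [IsAlgClosed K] [CharZero K]
    (A : ValuationSubring K) (y : F₀) [FiniteDimensional K⟮(y : F)⟯ F] (S : Finset K)
    (hSA : ∀ c ∈ S, c ∈ A) (hSd : ∀ c ∈ S, ∀ c' ∈ S, c ≠ c' → (c - c')⁻¹ ∈ A)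
    (hbr : ∀ (P : Place K F) (c : K), c ∉ S → 0 < P.ord ((y : F) - algebraMap K F c) →
      P.ord ((y : F) - algebraMap K F c) = 1)
    (hS0 : ∀ c ∈ S, c ∈ K₀) :
    letI := H19.algComap (A.comap (algebraMap K₀ K)) F₀
    ∃ S₀ : Finset ↥(A.comap (algebraMap K₀ K)),
      (∀ a ∈ S₀, ∀ b ∈ S₀, a ≠ b → IsUnit (a - b)) ∧
      ∀ V : ValuationSubring F₀,
        (∀ a : ↥(A.comap (algebraMap K₀ K)), a ≠ 0 →
          (algebraMap ↥(A.comap (algebraMap K₀ K)) F₀ a)⁻¹ ∈ V) →
        IsDiscreteValuationRing V → y ∈ V →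
        (∀ a ∈ S₀, (y - algebraMap ↥(A.comap (algebraMap K₀ K)) F₀ a)⁻¹ ∈ V) →
        ∃ g : (↥(A.comap (algebraMap K₀ K)))[X], aeval y g ∈ V ∧ (aeval y g)⁻¹ ∉ V ∧
          ∀ t ∈ V, t⁻¹ ∉ V → t / aeval y g ∈ V := by
  have hinj : Function.Injective (fun a : ↥(A.comap (algebraMap K₀ K)) => ((a : K₀) : K)) :=
    fun a b hab => Subtype.ext (Subtype.ext hab)
  refine ⟨S.preimage _ hinj.injOn, ?_, ?_⟩
  · intro a ha b hb hab
    rw [Finset.mem_preimage] at ha hb
    have hne : ((a : K₀) : K) ≠ ((b : K₀) : K) := fun h => hab (hinj h)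
    have hmem : ((a : K₀) - (b : K₀))⁻¹ ∈ A.comap (algebraMap K₀ K) := by
      rw [ValuationSubring.mem_comap, map_inv₀, map_sub]
      exact hSd _ ha _ hb hne
    have hne' : (a : K₀) - (b : K₀) ≠ 0 := fun h => hab (Subtype.ext (sub_eq_zero.mp h))
    exact isUnit_iff_exists_inv.mpr ⟨⟨_, hmem⟩, Subtype.ext (mul_inv_cancel₀ hne')⟩
  · intro V hV1 hdvr hyV hSV
    have hK : ∀ a : K₀, algebraMap K₀ F₀ a ∈ V :=
      algebraMap_mem_of_forall_inv_mem (A.comap (algebraMap K₀ K)) V (fun a ha => hV1 a ha)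
    have hV : V ≠ ⊤ := ne_top_of_isDiscreteValuationRing V
    have hSV' : ∀ a : K₀, (a : K) ∈ S → (y - algebraMap K₀ F₀ a)⁻¹ ∈ V := by
      intro a ha
      exact hSV ⟨a, ValuationSubring.mem_comap.mpr (hSA _ ha)⟩ (Finset.mem_preimage.mpr ha)
    obtain ⟨g₀, h1, h2, h3⟩ := branch_descent K₀ F₀ y S hbr V hK hV hyV hSV' hS0
    obtain ⟨b, hb, hbg⟩ := IsLocalization.integerNormalization_spec
      (nonZeroDivisors ↥(A.comap (algebraMap K₀ K))) g₀
    have hb0 : (b : K₀) ≠ 0 := fun h => nonZeroDivisors.ne_zero hb (Subtype.ext h)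
    have hd : algebraMap K₀ F₀ (b : K₀) ∈ V := hK _
    have hdi : (algebraMap K₀ F₀ (b : K₀))⁻¹ ∈ V := by
      rw [← map_inv₀]
      exact hK _
    have hd0 : algebraMap K₀ F₀ (b : K₀) ≠ 0 := by simpa using hb0
    have heq : @aeval ↥(A.comap (algebraMap K₀ K)) F₀ _ _
        (H19.algComap (A.comap (algebraMap K₀ K)) F₀) y
          (IsLocalization.integerNormalization (nonZeroDivisors ↥(A.comap (algebraMap K₀ K))) g₀)
        = algebraMap K₀ F₀ (b : K₀) * aeval y g₀ := by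
      have e1 : @aeval ↥(A.comap (algebraMap K₀ K)) F₀ _ _
          (H19.algComap (A.comap (algebraMap K₀ K)) F₀) y
            (IsLocalization.integerNormalization
              (nonZeroDivisors ↥(A.comap (algebraMap K₀ K))) g₀)
          = aeval y ((IsLocalization.integerNormalization
              (nonZeroDivisors ↥(A.comap (algebraMap K₀ K))) g₀).map
                (algebraMap ↥(A.comap (algebraMap K₀ K)) K₀)) := by
        rw [aeval_def (R := K₀), eval₂_map]
        rfl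
      rw [e1, hbg, ← algebraMap_smul K₀ b g₀, map_smul, Algebra.smul_def]
      rfl
    refine ⟨IsLocalization.integerNormalization
      (nonZeroDivisors ↥(A.comap (algebraMap K₀ K))) g₀, ?_, ?_, ?_⟩
    · rw [heq]
      exact V.mul_mem _ _ hd h1
    · rw [heq]
      intro h
      apply h2
      have := V.mul_mem _ _ hd h
      rwa [mul_inv, ← mul_assoc, mul_inv_cancel₀ hd0, one_mul] at this
    · intro t ht hti
      rw [heq]
      have := V.mul_mem _ _ hdi (h3 t ht hti)
      rwa [div_eq_mul_inv, ← mul_assoc, mul_comm _ t, mul_assoc, ← mul_inv, ← div_eq_mul_inv] at this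

/-- **The divisibility clause of `exists_descent`, verbatim**, from uniformisers in `F₀`. -/
theorem dsetup_hdiv [Algebra.IsAlgebraic K₀ K] (A : ValuationSubring K) (x : F)
    [FiniteDimensional K⟮x⟯ F] (hunif : ∀ P : Place K F, ∃ t : F₀, P.ord (t : F) = 1)
    (p : ℕ) (u : F₀) (hord : ∀ P : Place K F, (p : ℤ) ∣ P.ord (u : F)) :
    letI := H19.algComap (A.comap (algebraMap K₀ K)) F₀
    ∀ V : ValuationSubring F₀,
      (∀ a : ↥(A.comap (algebraMap K₀ K)), a ≠ 0 →
        (algebraMap ↥(A.comap (algebraMap K₀ K)) F₀ a)⁻¹ ∈ V) →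
      IsDiscreteValuationRing V →
      ∃ t : F₀, t ≠ 0 ∧ u / t ^ p ∈ V ∧ (u / t ^ p)⁻¹ ∈ V := by
  intro V hV1 hdvr
  have hK : ∀ a : K₀, algebraMap K₀ F₀ a ∈ V :=
    algebraMap_mem_of_forall_inv_mem (A.comap (algebraMap K₀ K)) V (fun a ha => hV1 a ha)
  exact hdiv_descent K₀ F₀ x hunif p u hord V hK (ne_top_of_isDiscreteValuationRing V)

end Wrappers

section Finite

variable {K F : Type*} [Field K] [Field F] [Algebra K F]

/-- **(P5)** Finitely many functions contain a uniformiser at every pole of `x` and at every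
place over a point of `S`. -/
theorem exists_uniformiser_finset [CharZero K] (x : F) (hx : Transcendental K x)
    [FiniteDimensional K⟮x⟯ F] (S : Finset K) :
    ∃ T : Finset F, ∀ P : Place K F,
      (P.ord x < 0 ∨ ∃ c ∈ S, 0 < P.ord (x - algebraMap K F c)) → ∃ t ∈ T, P.ord t = 1 := by
  classical
  have hfin : ({P : Place K F | P.ord x < 0} ∪
      ⋃ c ∈ (S : Set K), {P : Place K F | 0 < P.ord (x - algebraMap K F c)}).Finite :=
    (Fermat.Agent.S18.H42.finite_ord_x_neg x hx).union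
      (S.finite_toSet.biUnion (fun c _ => Fermat.Agent.S18.H42.finite_over x hx c))
  refine ⟨hfin.toFinset.image (fun P => (Fermat.Agent.S24.exists_ord_eq_one P).choose),
    fun P hP => ?_⟩
  refine ⟨_, Finset.mem_image.mpr ⟨P, ?_, rfl⟩,
    (Fermat.Agent.S24.exists_ord_eq_one P).choose_spec⟩
  rw [Set.Finite.mem_toFinset]
  rcases hP with h | ⟨c, hc, h⟩
  · exact Or.inl h
  · exact Or.inr (Set.mem_biUnion (Finset.mem_coe.mpr hc) h)

end Finite

section Package

variable {k K : Type*} [Field k] [Field K] [Algebra k K] {F : Type*} [Field F] [Algebra K F]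

/-- **The place-theoretic half of the number-field descent** (`exists_descent`, K2-N).

From the two branch statements of `H74.Setup` (for `x` and for `x⁻¹`) one gets a finite set
`S₁ ⊆ K` and a finite set `T ⊆ F` such that for EVERY intermediate field `K₀ ⊇ S₁` of `K/k` and
every intermediate field `F₀ ∋ x` of `F/K₀` containing `T`:
* the `branch` field of `H19.DSetup` holds for `x` and for `x⁻¹` (verbatim);
* for every `u ∈ F₀` whose divisor on `F/K` is divisible by `p`, the divisor of `u` on `F₀/K₀`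
  is divisible by `p` (the last clause of `exists_descent`, verbatim). -/
theorem exists_places_package [Algebra.IsAlgebraic k K] [IsAlgClosed K] [CharZero K]
    (A : ValuationSubring K) (x : F) (hx : Transcendental K x) [FiniteDimensional K⟮x⟯ F]
    (hbranch : ∃ S : Finset K, (∀ c ∈ S, c ∈ A) ∧
      (∀ c ∈ S, ∀ c' ∈ S, c ≠ c' → (c - c')⁻¹ ∈ A) ∧
      ∀ (P : Place K F) (c : K), c ∉ S →
        0 < P.ord (x - algebraMap K F c) → P.ord (x - algebraMap K F c) = 1)
    (hbranch_inv : ∃ S : Finset K, (∀ c ∈ S, c ∈ A) ∧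
      (∀ c ∈ S, ∀ c' ∈ S, c ≠ c' → (c - c')⁻¹ ∈ A) ∧
      ∀ (P : Place K F) (c : K), c ∉ S →
        0 < P.ord (x⁻¹ - algebraMap K F c) → P.ord (x⁻¹ - algebraMap K F c) = 1) :
    ∃ (S₁ : Finset K) (T : Finset F), ∀ (K₀ : IntermediateField k K)
      (F₀ : IntermediateField K₀ F) (hx₀ : x ∈ F₀), (∀ c ∈ S₁, c ∈ K₀) → (∀ t ∈ T, t ∈ F₀) →
      letI := H19.algComap (A.comap (algebraMap K₀ K)) F₀
      (∃ S₀ : Finset ↥(A.comap (algebraMap K₀ K)),
        (∀ a ∈ S₀, ∀ b ∈ S₀, a ≠ b → IsUnit (a - b)) ∧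
        ∀ V : ValuationSubring F₀,
          (∀ a : ↥(A.comap (algebraMap K₀ K)), a ≠ 0 →
            (algebraMap ↥(A.comap (algebraMap K₀ K)) F₀ a)⁻¹ ∈ V) →
          IsDiscreteValuationRing V → (⟨x, hx₀⟩ : F₀) ∈ V →
          (∀ a ∈ S₀,
            ((⟨x, hx₀⟩ : F₀) - algebraMap ↥(A.comap (algebraMap K₀ K)) F₀ a)⁻¹ ∈ V) →
          ∃ g : (↥(A.comap (algebraMap K₀ K)))[X],
            aeval (⟨x, hx₀⟩ : F₀) g ∈ V ∧ (aeval (⟨x, hx₀⟩ : F₀) g)⁻¹ ∉ V ∧
            ∀ t ∈ V, t⁻¹ ∉ V → t / aeval (⟨x, hx₀⟩ : F₀) g ∈ V) ∧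
      (∃ S₀ : Finset ↥(A.comap (algebraMap K₀ K)),
        (∀ a ∈ S₀, ∀ b ∈ S₀, a ≠ b → IsUnit (a - b)) ∧
        ∀ V : ValuationSubring F₀,
          (∀ a : ↥(A.comap (algebraMap K₀ K)), a ≠ 0 →
            (algebraMap ↥(A.comap (algebraMap K₀ K)) F₀ a)⁻¹ ∈ V) →
          IsDiscreteValuationRing V → (⟨x, hx₀⟩ : F₀)⁻¹ ∈ V →
          (∀ a ∈ S₀,
            ((⟨x, hx₀⟩ : F₀)⁻¹ - algebraMap ↥(A.comap (algebraMap K₀ K)) F₀ a)⁻¹ ∈ V) →
          ∃ g : (↥(A.comap (algebraMap K₀ K)))[X],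
            aeval (⟨x, hx₀⟩ : F₀)⁻¹ g ∈ V ∧ (aeval (⟨x, hx₀⟩ : F₀)⁻¹ g)⁻¹ ∉ V ∧
            ∀ t ∈ V, t⁻¹ ∉ V → t / aeval (⟨x, hx₀⟩ : F₀)⁻¹ g ∈ V) ∧
      ∀ (p : ℕ) (u : F₀), (∀ P : Place K F, (p : ℤ) ∣ P.ord (u : F)) →
        ∀ V : ValuationSubring F₀,
          (∀ a : ↥(A.comap (algebraMap K₀ K)), a ≠ 0 →
            (algebraMap ↥(A.comap (algebraMap K₀ K)) F₀ a)⁻¹ ∈ V) →
          IsDiscreteValuationRing V →
          ∃ t : F₀, t ≠ 0 ∧ u / t ^ p ∈ V ∧ (u / t ^ p)⁻¹ ∈ V := by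
  classical
  obtain ⟨S, hSA, hSd, hbr⟩ := hbranch
  obtain ⟨S', hSA', hSd', hbr'⟩ := hbranch_inv
  obtain ⟨T, hT⟩ := exists_uniformiser_finset x hx S
  refine ⟨S ∪ S', T, fun K₀ F₀ hx₀ hS1 hTF => ?_⟩
  have : Algebra.IsAlgebraic K₀ K := Algebra.IsAlgebraic.tower_top (K := k) K₀
  have hfd : FiniteDimensional K⟮x⁻¹⟯ F := by
    rw [Fermat.Agent.S18.H78.adjoin_simple_inv_eq]
    infer_instance
  have hfd' : FiniteDimensional K⟮(((⟨x, hx₀⟩ : F₀)⁻¹ : F₀) : F)⟯ F := hfd
  have hunif : ∀ P : Place K F, ∃ t : F₀, P.ord (t : F) = 1 := by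
    have : FiniteDimensional K⟮((⟨x, hx₀⟩ : F₀) : F)⟯ F := ‹FiniteDimensional K⟮x⟯ F›
    refine exists_ord_eq_one K₀ F₀ (⟨x, hx₀⟩ : F₀) S hbr (fun P hP => ?_)
    obtain ⟨t, htT, ht⟩ := hT P hP
    exact ⟨⟨t, hTF t htT⟩, ht⟩
  refine ⟨?_, ?_, ?_⟩
  · have : FiniteDimensional K⟮((⟨x, hx₀⟩ : F₀) : F)⟯ F := ‹FiniteDimensional K⟮x⟯ F›
    exact dsetup_branch K₀ F₀ A (⟨x, hx₀⟩ : F₀) S hSA hSd hbr
      (fun c hc => hS1 c (Finset.mem_union_left _ hc))
  · exact dsetup_branch K₀ F₀ A ((⟨x, hx₀⟩ : F₀)⁻¹) S' hSA' hSd' hbr'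
      (fun c hc => hS1 c (Finset.mem_union_right _ hc))
  · intro p u hord
    exact dsetup_hdiv K₀ F₀ A x hunif p u hord

/-- `ℚ̄` is algebraic over `ℚ`, for the `ℚ`-algebra structure found by instance search (the one
used in `IntermediateField ℚ (AlgebraicClosure ℚ)`). -/
theorem isAlgebraic_rat_algebraicClosure : Algebra.IsAlgebraic ℚ (AlgebraicClosure ℚ) := by
  have h : @Algebra.IsAlgebraic ℚ (AlgebraicClosure ℚ) _ _ (AlgebraicClosure.instAlgebra ℚ) :=
    AlgebraicClosure.isAlgebraic ℚ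
  have e : (AlgebraicClosure.instAlgebra ℚ : Algebra ℚ (AlgebraicClosure ℚ))
      = DivisionRing.toRatAlgebra := Subsingleton.elim _ _
  rw [e] at h
  exact h

end Package

end Fermat.Agent.S18.H61
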