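/-
S18 / core 2, leaf K2-N (`exists_descent`), place half: the three leaves N-BR, N-UNIF, N-HDIV of
helper8's sub-skeleton (`H8/DescentSkel.lean`), statements VERBATIM, from `H61/DescPlaces.lean`.
(helper61)
-/
import Mathlib
import Fermat.Agent.S18.H74.Setup
import Fermat.Agent.S18.H19.Core2Defs
import Fermat.Agent.S18.H61.DescPlaces

set_option autoImplicit false

open AlgebraicCurve IntermediateField Polynomial

noncomputable section

namespace Fermat.Agent.S18.H61.Desc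

open Fermat.Agent.S18.H74 Fermat.Agent.S18.H19

variable {k K : Type*} [Field k] [Field K] [Algebra k K]
  (A : ValuationSubring K) {F : Type*} [Field F] [Algebra K F]
  (K₀ : IntermediateField k K) (F₀ : IntermediateField K₀ F) (x : F) (hx₀ : x ∈ F₀)

/-- (N-BR) `DSetup.branch`, from the branch clause of the `Setup` for a finite set
`S ⊆ A ∩ K₀`.  (Applied to `x` and to `x⁻¹`.) -/
theorem dsetup_branch [IsAlgClosed K] [CharZero K] (hK : Algebra.IsAlgebraic K₀ K)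
    (hx : Transcendental K x) [FiniteDimensional K⟮x⟯ F]
    (S : Finset K) (hSA : ∀ c ∈ S, c ∈ A)
    (hSu : ∀ c ∈ S, ∀ c' ∈ S, c ≠ c' → (c - c')⁻¹ ∈ A)
    (hSbr : ∀ (P : Place K F) (c : K), c ∉ S →
      0 < P.ord (x - algebraMap K F c) → P.ord (x - algebraMap K F c) = 1)
    (hSK₀ : ∀ c ∈ S, c ∈ K₀) :
    letI := algComap (A.comap (algebraMap K₀ K)) F₀
    ∃ S₀ : Finset ↥(A.comap (algebraMap K₀ K)), (∀ a ∈ S₀, ∀ b ∈ S₀, a ≠ b → IsUnit (a - b)) ∧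
      ∀ V : ValuationSubring F₀,
        (∀ a : ↥(A.comap (algebraMap K₀ K)), a ≠ 0 →
          (algebraMap ↥(A.comap (algebraMap K₀ K)) F₀ a)⁻¹ ∈ V) →
        IsDiscreteValuationRing V → (⟨x, hx₀⟩ : F₀) ∈ V →
        (∀ a ∈ S₀, ((⟨x, hx₀⟩ : F₀) - algebraMap ↥(A.comap (algebraMap K₀ K)) F₀ a)⁻¹ ∈ V) →
        ∃ g : (↥(A.comap (algebraMap K₀ K)))[X], aeval (⟨x, hx₀⟩ : F₀) g ∈ V ∧
          (aeval (⟨x, hx₀⟩ : F₀) g)⁻¹ ∉ V ∧
          ∀ t ∈ V, t⁻¹ ∉ V → t / aeval (⟨x, hx₀⟩ : F₀) g ∈ V := by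
  have _ := hx
  have : FiniteDimensional K⟮((⟨x, hx₀⟩ : F₀) : F)⟯ F := ‹FiniteDimensional K⟮x⟯ F›
  exact _root_.Fermat.Agent.S18.H61.dsetup_branch K₀ F₀ A (⟨x, hx₀⟩ : F₀) S hSA hSu hSbr hSK₀

/-- (N-UNIF) finitely many uniformisers: at the poles of `x` and at the places over the points
of `S`. -/
theorem exists_uniformiser_finset [IsAlgClosed K] [CharZero K] (hx : Transcendental K x)
    [FiniteDimensional K⟮x⟯ F] (S : Finset K) :
    ∃ T : Finset F, ∀ P : Place K F,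
      (x ∉ P.toValuationSubring ∨ ∃ c ∈ S, 0 < P.ord (x - algebraMap K F c)) →
      ∃ t ∈ T, P.ord t = 1 := by
  obtain ⟨T, hT⟩ := _root_.Fermat.Agent.S18.H61.exists_uniformiser_finset x hx S
  refine ⟨T, fun P hP => hT P ?_⟩
  rcases hP with h | h
  · left
    have hx0 : x ≠ 0 := fun h0 => hx (h0 ▸ isAlgebraic_zero)
    have := (Fermat.Agent.S24.mem_iff_ord_nonneg P hx0).not.mp h
    omega
  · exact Or.inr h

/-- (N-HDIV) the divisor of `u` on `F₀/K₀` is divisible by `p`. -/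
theorem descent_hdiv [IsAlgClosed K] [CharZero K] (hK : Algebra.IsAlgebraic K₀ K)
    (hx : Transcendental K x) [FiniteDimensional K⟮x⟯ F] (hxF₀ : x ∈ F₀)
    (S : Finset K)
    (hSbr : ∀ (P : Place K F) (c : K), c ∉ S →
      0 < P.ord (x - algebraMap K F c) → P.ord (x - algebraMap K F c) = 1)
    (hSK₀ : ∀ c ∈ S, c ∈ K₀)
    (hunif : ∀ P : Place K F,
      (x ∉ P.toValuationSubring ∨ ∃ c ∈ S, 0 < P.ord (x - algebraMap K F c)) →
      ∃ t ∈ F₀, P.ord t = 1)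
    (p : ℕ) (u : F) (hu₀ : u ∈ F₀) (hord : ∀ P : Place K F, (p : ℤ) ∣ P.ord u) :
    letI := algComap (A.comap (algebraMap K₀ K)) F₀
    ∀ V : ValuationSubring F₀,
      (∀ a : ↥(A.comap (algebraMap K₀ K)), a ≠ 0 →
        (algebraMap ↥(A.comap (algebraMap K₀ K)) F₀ a)⁻¹ ∈ V) →
      IsDiscreteValuationRing V →
      ∃ t : F₀, t ≠ 0 ∧ (⟨u, hu₀⟩ : F₀) / t ^ p ∈ V ∧ ((⟨u, hu₀⟩ : F₀) / t ^ p)⁻¹ ∈ V := by
  have _ := hSK₀
  have hx0 : x ≠ 0 := fun h0 => hx (h0 ▸ isAlgebraic_zero)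
  have hunif' : ∀ P : Place K F, ∃ t : F₀, P.ord (t : F) = 1 := by
    have : FiniteDimensional K⟮((⟨x, hxF₀⟩ : F₀) : F)⟯ F := ‹FiniteDimensional K⟮x⟯ F›
    refine exists_ord_eq_one K₀ F₀ (⟨x, hxF₀⟩ : F₀) S hSbr (fun P hP => ?_)
    have hP' : x ∉ P.toValuationSubring ∨ ∃ c ∈ S, 0 < P.ord (x - algebraMap K F c) := by
      rcases hP with h | h
      · left
        intro hmem
        have := (Fermat.Agent.S24.mem_iff_ord_nonneg P hx0).mp hmem
        have h' : P.ord x < 0 := h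
        omega
      · exact Or.inr h
    obtain ⟨t, ht, htP⟩ := hunif P hP'
    exact ⟨⟨t, ht⟩, htP⟩
  exact _root_.Fermat.Agent.S18.H61.dsetup_hdiv K₀ F₀ A x hunif' p ⟨u, hu₀⟩ hord

end Fermat.Agent.S18.H61.Desc
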