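/-
S18 / core 2, leaf K2-N (`exists_descent`): the two small inner steps of helper8's assembly
(`hθ`: the orthonormal family of a `Setup` spans `F` over `K(x)`; the one-unit clause for the
descended valuation ring).  (helper61)
-/
import Mathlib
import Fermat.Agent.S18.H74.Setup
import Fermat.Agent.S18.H80.OfSetup

set_option autoImplicit false

open AlgebraicCurve IntermediateField Polynomial

noncomputable section

namespace Fermat.Agent.S18.H61

open Fermat.Agent.S18.H74

/-- The orthonormal family with unit Gram determinant of a `Setup` spans `F` over `K(x)`. -/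
theorem exists_coord_of_setup {K : Type*} [Field K] {A : ValuationSubring K} {F : Type*} [Field F]
    [Algebra K F] {O : ValuationSubring F} {x : F} (hA : A ≠ ⊤) (hS : Setup K A F O x)
    (θ : Fin (Module.finrank K⟮x⟯ F) → F)
    (horth : ∀ r : Fin (Module.finrank K⟮x⟯ F) → K⟮x⟯,
      (∑ i, (r i : F) * θ i) ∈ O ↔ ∀ i, (r i : F) ∈ O)
    (hgram : ((gramDet K F x θ : K⟮x⟯) : F)⁻¹ ∈ O) :
    ∀ f : F, ∃ r : Fin (Module.finrank K⟮x⟯ F) → K⟮x⟯, f = ∑ i, (r i : F) * θ i := by
  intro f
  have D := Fermat.Agent.S18.H80.resData_of_setup hA hS θ horth hgram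
  exact ⟨fun i => D.basisF.repr f i, (D.sum_repr f).symm⟩

/-- Nonunits of the trace of a valuation ring on a subfield. -/
theorem mem_nonunits_comap_iff {K₀ F : Type*} [Field K₀] [Field F] [Algebra K₀ F]
    (F₀ : IntermediateField K₀ F) (O : ValuationSubring F) (z : F₀) :
    z ∈ (O.comap (algebraMap F₀ F)).nonunits ↔ (z : F) ∈ O.nonunits := by
  rw [ValuationSubring.mem_nonunits_iff_or, ValuationSubring.mem_nonunits_iff_or,
    ValuationSubring.mem_comap]
  constructor
  · rintro (h | h)
    · left
      rw [h]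
      rfl
    · right
      exact h
  · rintro (h | h)
    · left
      exact Subtype.ext h
    · right
      exact h

/-- The one-unit clause of `exists_descent`. -/
theorem sub_one_mem_nonunits_comap {K₀ F : Type*} [Field K₀] [Field F] [Algebra K₀ F]
    (F₀ : IntermediateField K₀ F) (O : ValuationSubring F) (u : F) (hu₀ : u ∈ F₀)
    (hu : u - 1 ∈ O.nonunits) :
    (⟨u, hu₀⟩ : F₀) - 1 ∈ (O.comap (algebraMap F₀ F)).nonunits :=
  (mem_nonunits_comap_iff F₀ O _).mpr hu

end Fermat.Agent.S18.H61
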